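/-
S55 / layer G / block EXIST, leaf EX-KUM (helper361), part 1: the SPLIT NORM lemma (Mathlib only).

Abstract setting: a commutative ring `R` with an action `act : Γ →* (R ≃+* R)` of a finite group,
a field `K` with a ring homomorphism `ι : K →+* R` whose image is fixed by `Γ`, a prime `p`
invertible in `K` with a primitive `p`-th root of unity in `K`, and a finite family of elements
`t i ∈ R` with `t i ^ p = 1` on which `Γ` acts through characters `χ i : Γ →* μ_p(K)`
(`g (t i) = χ i g · t i`) which separate the elements of `Γ`.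

Then there is a "torsor idempotent" `e ∈ R`: the translates `g e` are pairwise orthogonal and
sum to `1` (`exists_torsor_idempotent`).  Consequently every `Γ`-invariant unit of `R` is a
norm (`exists_units_prod_eq`).

Application (file `KummerField.lean`): `R = M ⊗ ℚ_S` for a Kummer extension `M = K(ᵖ√B)` in
which every `b ∈ B` is a `p`-th power in `K ⊗ ℚ_S` (all places above `S` split completely).
-/
import Mathlib

set_option autoImplicit false

namespace Fermat.Agent.S55.G.Exist.H361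

open Finset

section Averaging

variable {R : Type*} [CommRing R]

/-- The averaging element `c · ∑_{i<p} s^i` (with `c = p⁻¹`). -/
def avgPow (p : ℕ) (c s : R) : R := c * ∑ i ∈ range p, s ^ i

lemma mul_avgPow {p : ℕ} (c : R) {s : R} (hs : s ^ p = 1) : s * avgPow p c s = avgPow p c s := by
  unfold avgPow
  have h : s * ∑ i ∈ range p, s ^ i = ∑ i ∈ range p, s ^ i := by
    rw [mul_sum]
    have h1 : ∑ i ∈ range p, s * s ^ i = ∑ i ∈ range p, s ^ (i + 1) :=
      sum_congr rfl fun i _ => by rw [pow_succ, mul_comm]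
    rw [h1]
    have h2 := sum_range_succ (fun i => s ^ i) p
    have h3 := sum_range_succ' (fun i => s ^ i) p
    simp only [pow_zero] at h3
    rw [h2, hs] at h3
    exact (add_right_cancel h3).symm
  rw [mul_left_comm, h]

lemma pow_mul_avgPow {p : ℕ} (c : R) {s : R} (hs : s ^ p = 1) (i : ℕ) :
    s ^ i * avgPow p c s = avgPow p c s := by
  induction i with
  | zero => rw [pow_zero, one_mul]
  | succ i ih => rw [pow_succ, mul_assoc, mul_avgPow c hs, ih]

/-- `P(s) · P(η s) = 0` if `∑_{i<p} η^i = 0`. -/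
lemma avgPow_mul_avgPow_eq_zero {p : ℕ} (c : R) {s η : R} (hs : s ^ p = 1)
    (hη : ∑ i ∈ range p, η ^ i = 0) : avgPow p c s * avgPow p c (η * s) = 0 := by
  have h : avgPow p c s * avgPow p c (η * s) = c * ((∑ i ∈ range p, η ^ i) * avgPow p c s) := by
    conv_lhs => rw [avgPow.eq_def p c (η * s)]
    rw [mul_left_comm, mul_sum, sum_mul]
    congr 1
    refine sum_congr rfl fun i _ => ?_
    rw [mul_pow, mul_comm (avgPow p c s), mul_assoc, pow_mul_avgPow c hs]
  rw [h, hη, zero_mul, mul_zero]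

lemma map_avgPow {R' F : Type*} [CommRing R'] [FunLike F R R'] [RingHomClass F R R'] (f : F)
    (p : ℕ) (c s : R) :
    f (avgPow p c s) = avgPow p (f c) (f s) := by
  simp [avgPow, map_sum]

/-- A product `∏ (1 + x g)` of pairwise orthogonal elements. -/
lemma prod_one_add_of_orthogonal {α : Type*} [DecidableEq α] (s : Finset α) (x : α → R)
    (h : ∀ a ∈ s, ∀ b ∈ s, a ≠ b → x a * x b = 0) :
    ∏ a ∈ s, (1 + x a) = 1 + ∑ a ∈ s, x a := by
  induction s using Finset.induction_on with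
  | empty => simp
  | insert a s ha ih =>
    rw [prod_insert ha, sum_insert ha, ih fun b hb c hc => h b (mem_insert_of_mem hb) c
      (mem_insert_of_mem hc)]
    have h0 : x a * ∑ b ∈ s, x b = 0 := by
      rw [mul_sum]
      refine sum_eq_zero fun b hb => ?_
      exact h a (mem_insert_self a s) b (mem_insert_of_mem hb) (fun hab => ha (hab ▸ hb))
    calc (1 + x a) * (1 + ∑ b ∈ s, x b)
        = 1 + (x a + ∑ b ∈ s, x b) + x a * ∑ b ∈ s, x b := by ring
      _ = 1 + (x a + ∑ b ∈ s, x b) := by rw [h0, add_zero]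

end Averaging

section RootSums

variable {K : Type*} [Field K] {p : ℕ}

lemma rootsOfUnity_val_pow (η : rootsOfUnity p K) : ((η : Kˣ) : K) ^ p = 1 := by
  have h := (mem_rootsOfUnity p (η : Kˣ)).1 η.2
  have h2 := congrArg Units.val h
  simpa using h2

/-- `∑_{i<p} η^i = 0` for a `p`-th root of unity `η ≠ 1` in a field. -/
lemma geom_sum_rootsOfUnity_eq_zero (η : rootsOfUnity p K) (hη : η ≠ 1) :
    ∑ i ∈ range p, ((η : Kˣ) : K) ^ i = 0 := by
  have h1 : ((η : Kˣ) : K) ^ p = 1 := rootsOfUnity_val_pow η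
  have h2 : ((η : Kˣ) : K) - 1 ≠ 0 := by
    intro h
    apply hη
    ext
    rw [sub_eq_zero] at h
    simpa using h
  have h3 := mul_geom_sum ((η : Kˣ) : K) p
  rw [h1, sub_self] at h3
  exact (mul_eq_zero.1 h3).resolve_left h2

variable [NeZero p] [Fintype (rootsOfUnity p K)]

/-- `∑_{η ∈ μ_p} η^i = 0` for `0 < i < p`, `p` prime, when `μ_p` has a primitive root. -/
lemma sum_rootsOfUnity_pow_eq_zero {ζ : K} (hζ : IsPrimitiveRoot ζ p) {i : ℕ}
    (hi0 : 0 < i) (hip : i < p) :
    ∑ η : rootsOfUnity p K, ((η : Kˣ) : K) ^ i = 0 := by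
  -- the element `ζ` of `μ_p`
  have hζu : IsUnit ζ := hζ.isUnit (NeZero.ne p)
  have hmem : hζu.unit ∈ rootsOfUnity p K := by
    rw [mem_rootsOfUnity]
    ext
    simp [hζ.pow_eq_one]
  let z : rootsOfUnity p K := ⟨hζu.unit, hmem⟩
  have hz : ((z : Kˣ) : K) = ζ := rfl
  have hzi : ζ ^ i ≠ 1 := by
    intro h
    have := hζ.dvd_of_pow_eq_one i h
    exact absurd (Nat.le_of_dvd hi0 this) (not_le.2 hip)
  have key : ζ ^ i * ∑ η : rootsOfUnity p K, ((η : Kˣ) : K) ^ i =
      ∑ η : rootsOfUnity p K, ((η : Kˣ) : K) ^ i := by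
    rw [mul_sum]
    refine Fintype.sum_equiv (Equiv.mulLeft z) _ _ fun η => ?_
    simp only [Equiv.coe_mulLeft, Subgroup.coe_mul, Units.val_mul, mul_pow, hz]
  have h : (ζ ^ i - 1) * ∑ η : rootsOfUnity p K, ((η : Kˣ) : K) ^ i = 0 := by
    rw [sub_mul, key, one_mul, sub_self]
  exact (mul_eq_zero.1 h).resolve_left (sub_ne_zero.2 hzi)

/-- `∑_{η ∈ μ_p} ∑_{i<p} (η s)^i = p` (in any `K`-algebra-like ring). -/
lemma sum_rootsOfUnity_geom {R : Type*} [CommRing R] (ι : K →+* R) (hp : p.Prime) {ζ : K}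
    (hζ : IsPrimitiveRoot ζ p) (s : R) :
    ∑ η : rootsOfUnity p K, ∑ i ∈ range p, (ι ((η : Kˣ) : K) * s) ^ i = (p : R) := by
  rw [sum_comm]
  have h : ∀ i ∈ range p, ∑ η : rootsOfUnity p K, (ι ((η : Kˣ) : K) * s) ^ i =
      if i = 0 then (p : R) else 0 := by
    intro i hi
    rw [mem_range] at hi
    split_ifs with h0
    · subst h0
      simp only [pow_zero, sum_const, card_univ, nsmul_eq_mul, mul_one]
      rw [← Nat.card_eq_fintype_card, hζ.card_rootsOfUnity]
    · have h1 : ∑ η : rootsOfUnity p K, (ι ((η : Kˣ) : K) * s) ^ i =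
          ι (∑ η : rootsOfUnity p K, ((η : Kˣ) : K) ^ i) * s ^ i := by
        rw [map_sum, sum_mul]
        refine sum_congr rfl fun η _ => ?_
        rw [mul_pow, map_pow]
      rw [h1, sum_rootsOfUnity_pow_eq_zero hζ (Nat.pos_of_ne_zero h0) hi, map_zero, zero_mul]
  rw [sum_congr rfl h, sum_ite_eq' (range p) 0]
  simp [hp.pos]

end RootSums

section Torsor

variable {K R Γ I : Type*} [Field K] [CommRing R] [Group Γ] [Fintype Γ] [Fintype I]
  [DecidableEq I]
  {p : ℕ} [NeZero p] (hp : p.Prime) (ι : K →+* R) (hpK : (p : K) ≠ 0) {ζ : K}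
  (hζ : IsPrimitiveRoot ζ p)
  (act : Γ →* (R ≃+* R)) (hfix : ∀ (g : Γ) (x : K), act g (ι x) = ι x)
  (t : I → R) (ht : ∀ i, t i ^ p = 1) (χ : I → Γ →* rootsOfUnity p K)
  (hact : ∀ i g, act g (t i) = ι ((χ i g : Kˣ) : K) * t i)
  (hsep : ∀ g : Γ, g ≠ 1 → ∃ i, χ i g ≠ 1)

/-- The joint eigenprojector attached to `k : I → μ_p`. -/
noncomputable def eigenProj (ι : K →+* R) (t : I → R) (k : I → rootsOfUnity p K) : R :=
  ∏ i, avgPow p (ι ((p : K)⁻¹)) (ι (((k i)⁻¹ : rootsOfUnity p K) : Kˣ) * t i)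

omit [NeZero p] [Fintype Γ] [Fintype I] [DecidableEq I] in
include ht in
lemma rootMul_pow_eq_one (i : I) (η : rootsOfUnity p K) :
    (ι ((η : Kˣ) : K) * t i) ^ p = 1 := by
  rw [mul_pow, ht, mul_one, ← map_pow, rootsOfUnity_val_pow η, map_one]

omit [NeZero p] [Fintype Γ] [DecidableEq I] in
include hfix hact in
/-- The combined character `Γ → (I → μ_p)`. -/
lemma act_eigenProj (g : Γ) (k : I → rootsOfUnity p K) :
    act g (eigenProj ι t k) = eigenProj ι t (fun i => k i * (χ i g)⁻¹) := by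
  unfold eigenProj
  rw [map_prod]
  refine prod_congr rfl fun i _ => ?_
  rw [map_avgPow (act g)]
  rw [map_mul, hfix, hfix, hact, ← mul_assoc, ← map_mul]
  congr 3
  simp [mul_comm]

omit [NeZero p] [Fintype Γ] [DecidableEq I] in
include ht in
lemma eigenProj_mul_eigenProj_of_ne {k l : I → rootsOfUnity p K} (hkl : k ≠ l) :
    eigenProj ι t k * eigenProj ι t l = 0 := by
  classical
  obtain ⟨i, hi⟩ := Function.ne_iff.1 hkl
  unfold eigenProj
  rw [← prod_mul_distrib]
  refine prod_eq_zero (mem_univ i) ?_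
  -- `s = (k i)⁻¹ t`, `η = k i (l i)⁻¹`
  have hη : (k i * (l i)⁻¹ : rootsOfUnity p K) ≠ 1 := by
    intro h
    exact hi (mul_inv_eq_one.1 h)
  have h1 := avgPow_mul_avgPow_eq_zero (ι ((p : K)⁻¹)) (η := ι (((k i * (l i)⁻¹ :
    rootsOfUnity p K) : Kˣ) : K))
    (rootMul_pow_eq_one ι t ht i (k i)⁻¹)
    (by
      rw [← geom_sum_rootsOfUnity_eq_zero _ hη |> congrArg ι |>.trans (map_zero ι) |>.symm.symm]
      rw [map_sum]
      simp only [map_pow])
  rw [← mul_assoc, ← map_mul] at h1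
  have h2 : ((((k i * (l i)⁻¹ : rootsOfUnity p K) : Kˣ) : K) *
      ((((k i)⁻¹ : rootsOfUnity p K) : Kˣ) : K)) = ((((l i)⁻¹ : rootsOfUnity p K) : Kˣ) : K) := by
    rw [← Units.val_mul, ← Subgroup.coe_mul]
    congr 2
    rw [mul_comm (k i), mul_assoc, mul_inv_cancel, mul_one]
  rw [h2] at h1
  exact h1

include hp hζ hpK in
omit [Fintype Γ] in
lemma sum_eigenProj [Fintype (rootsOfUnity p K)] :
    ∑ k : I → rootsOfUnity p K, eigenProj ι t k = 1 := by
  unfold eigenProj
  have h := (Finset.prod_univ_sum (fun _ : I => (univ : Finset (rootsOfUnity p K)))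
    (fun i η => avgPow p (ι ((p : K)⁻¹)) (ι (((η)⁻¹ : rootsOfUnity p K) : Kˣ) * t i))).symm
  rw [Fintype.piFinset_univ] at h
  rw [h]
  refine prod_eq_one fun i _ => ?_
  have h1 : ∑ η : rootsOfUnity p K, avgPow p (ι ((p : K)⁻¹))
      (ι (((η)⁻¹ : rootsOfUnity p K) : Kˣ) * t i) =
      ∑ η : rootsOfUnity p K, avgPow p (ι ((p : K)⁻¹)) (ι ((η : Kˣ) : K) * t i) :=
    Fintype.sum_equiv (Equiv.inv _) _ _ fun η => rfl
  rw [h1]
  unfold avgPow
  rw [← mul_sum, sum_rootsOfUnity_geom ι hp hζ, ← map_natCast ι, ← map_mul, inv_mul_cancel₀ hpK,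
    map_one]

include hp hζ hpK hfix ht hact hsep in
/-- **Torsor idempotent.**  There is `e ∈ R` whose `Γ`-translates are pairwise orthogonal and
sum to `1`. -/
theorem exists_torsor_idempotent :
    ∃ e : R, (∀ g h : Γ, g ≠ h → act g e * act h e = 0) ∧ ∑ g : Γ, act g e = 1 := by
  classical
  letI : Fintype (rootsOfUnity p K) := Fintype.ofFinite _
  -- the character `X : Γ →* V`, `V = I → μ_p`
  let V := I → rootsOfUnity p K
  let X : Γ →* V :=
    { toFun := fun g i => χ i g
      map_one' := by funext i; exact map_one (χ i)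
      map_mul' := fun g h => by funext i; exact map_mul (χ i) g h }
  have hX : Function.Injective X := by
    rw [injective_iff_map_eq_one]
    intro g hg
    by_contra hne
    obtain ⟨i, hi⟩ := hsep g hne
    exact hi (congrFun hg i)
  have hactE : ∀ (g : Γ) (k : V), act g (eigenProj ι t k) = eigenProj ι t (k * (X g)⁻¹) :=
    fun g k => act_eigenProj ι act hfix t χ hact g k
  -- coset representatives of `V / X(Γ)`
  let H : Subgroup V := X.range
  let Ω : Finset V := univ.filter fun k => (QuotientGroup.mk k : V ⧸ H).out = k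
  let e : R := ∑ k ∈ Ω, eigenProj ι t k
  have hacte : ∀ g : Γ, act g e = ∑ k ∈ Ω, eigenProj ι t (k * (X g)⁻¹) := by
    intro g
    rw [map_sum]
    exact sum_congr rfl fun k _ => hactE g k
  -- the map `(g, k) ↦ k (X g)⁻¹` is injective on `Γ × Ω`
  have hinj : ∀ g h : Γ, ∀ k ∈ Ω, ∀ l ∈ Ω, k * (X g)⁻¹ = l * (X h)⁻¹ → g = h ∧ k = l := by
    intro g h k hk l hl hkl
    have hk' : (QuotientGroup.mk k : V ⧸ H).out = k := (mem_filter.1 hk).2
    have hl' : (QuotientGroup.mk l : V ⧸ H).out = l := (mem_filter.1 hl).2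
    have hmk : (QuotientGroup.mk k : V ⧸ H) = QuotientGroup.mk l := by
      rw [QuotientGroup.eq]
      have : k⁻¹ * l = X (g⁻¹ * h) := by
        rw [map_mul, map_inv]
        have h1 : l = k * (X g)⁻¹ * X h := by rw [hkl, inv_mul_cancel_right]
        rw [h1, mul_assoc, inv_mul_cancel_left]
      rw [this]
      exact ⟨_, rfl⟩
    have hkl' : k = l := by rw [← hk', ← hl', hmk]
    subst hkl'
    refine ⟨hX ?_, rfl⟩
    have := mul_left_cancel hkl
    exact inv_injective this
  refine ⟨e, fun g h hgh => ?_, ?_⟩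
  · rw [hacte, hacte, sum_mul_sum]
    refine sum_eq_zero fun k hk => sum_eq_zero fun l hl => ?_
    refine eigenProj_mul_eigenProj_of_ne ι t ht fun hkl => ?_
    exact hgh (hinj g h k hk l hl hkl).1
  · rw [← sum_eigenProj hp ι hpK hζ t]
    simp_rw [hacte]
    rw [← sum_product' univ Ω (fun g k => eigenProj ι t (k * (X g)⁻¹))]
    refine sum_bij (fun x _ => x.2 * (X x.1)⁻¹) (fun _ _ => mem_univ _) ?_ ?_ (fun _ _ => rfl)
    · rintro ⟨g, k⟩ hgk ⟨h, l⟩ hhl hEq
      have hk : k ∈ Ω := (mem_product.1 hgk).2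
      have hl : l ∈ Ω := (mem_product.1 hhl).2
      obtain ⟨h1, h2⟩ := hinj g h k hk l hl hEq
      rw [h1, h2]
    · intro v _
      obtain ⟨h, hh⟩ := QuotientGroup.mk_out_eq_mul H v
      obtain ⟨g, hg⟩ := h.2
      refine ⟨(g, (QuotientGroup.mk v : V ⧸ H).out), ?_, ?_⟩
      · refine mem_product.2 ⟨mem_univ _, mem_filter.2 ⟨mem_univ _, ?_⟩⟩
        rw [QuotientGroup.out_eq']
      · show (QuotientGroup.mk v : V ⧸ H).out * (X g)⁻¹ = v
        rw [hh, hg, mul_inv_cancel_right]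

include hp hζ hpK hfix ht hact hsep in
/-- **Split norms.**  Every `Γ`-invariant unit of `R` is a norm. -/
theorem exists_units_prod_eq (j : Rˣ) (hj : ∀ g : Γ, act g (j : R) = j) :
    ∃ j' : Rˣ, ∏ g : Γ, Units.map ((act g : R ≃+* R) : R →* R) j' = j := by
  classical
  obtain ⟨e, horth, hsum⟩ := exists_torsor_idempotent hp ι hpK hζ act hfix t ht χ hact hsep
  have he1 : act 1 e = e := by rw [map_one]; rfl
  have hidem : e * e = e := by
    have h1 : e * ∑ g : Γ, act g e = e * e := by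
      rw [mul_sum, sum_eq_single (1 : Γ)]
      · rw [he1]
      · intro g _ hg
        have := horth 1 g (Ne.symm hg)
        rwa [he1] at this
      · intro h; exact absurd (mem_univ _) h
    rw [← h1, hsum, mul_one]
  have hjinv : ∀ g : Γ, act g ((j⁻¹ : Rˣ) : R) = ((j⁻¹ : Rˣ) : R) := by
    intro g
    have h1 : act g ((j⁻¹ : Rˣ) : R) * (j : R) = 1 := by
      conv_lhs => rw [← hj g]
      rw [← map_mul, Units.inv_mul, map_one]
    calc act g ((j⁻¹ : Rˣ) : R) = act g ((j⁻¹ : Rˣ) : R) * ((j : R) * ((j⁻¹ : Rˣ) : R)) := by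
          rw [Units.mul_inv, mul_one]
      _ = ((j⁻¹ : Rˣ) : R) := by rw [← mul_assoc, h1, one_mul]
  let j' : Rˣ :=
    { val := 1 + ((j : R) - 1) * e
      inv := 1 + (((j⁻¹ : Rˣ) : R) - 1) * e
      val_inv := by
        have h : (j : R) * ((j⁻¹ : Rˣ) : R) = 1 := Units.mul_inv j
        calc (1 + ((j : R) - 1) * e) * (1 + (((j⁻¹ : Rˣ) : R) - 1) * e)
            = 1 + (((j : R) - 1) + (((j⁻¹ : Rˣ) : R) - 1)) * e
              + ((j : R) * ((j⁻¹ : Rˣ) : R) - (j : R) - ((j⁻¹ : Rˣ) : R) + 1) * (e * e) := by ring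
          _ = 1 := by rw [hidem, h]; ring
      inv_val := by
        have h : ((j⁻¹ : Rˣ) : R) * (j : R) = 1 := Units.inv_mul j
        calc (1 + (((j⁻¹ : Rˣ) : R) - 1) * e) * (1 + ((j : R) - 1) * e)
            = 1 + (((j : R) - 1) + (((j⁻¹ : Rˣ) : R) - 1)) * e
              + (((j⁻¹ : Rˣ) : R) * (j : R) - (j : R) - ((j⁻¹ : Rˣ) : R) + 1) * (e * e) := by ring
          _ = 1 := by rw [hidem, h]; ring }
  refine ⟨j', Units.ext ?_⟩
  rw [Units.coe_prod]
  have h1 : ∀ g : Γ, ((Units.map ((act g : R ≃+* R) : R →* R) j' : Rˣ) : R) =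
      1 + ((j : R) - 1) * act g e := by
    intro g
    show act g (1 + ((j : R) - 1) * e) = _
    rw [map_add, map_one, map_mul, map_sub, map_one, hj]
  simp_rw [h1]
  rw [prod_one_add_of_orthogonal univ (fun g => ((j : R) - 1) * act g e)]
  · rw [← mul_sum, hsum]; ring
  · intro g _ h _ hgh
    calc ((j : R) - 1) * act g e * (((j : R) - 1) * act h e)
        = ((j : R) - 1) * ((j : R) - 1) * (act g e * act h e) := by ring
      _ = 0 := by rw [horth g h hgh, mul_zero]

end Torsor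

end Fermat.Agent.S55.G.Exist.H361
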