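/-
S55 / layer G / block EXIST, leaf EX-KUM (helper361), part 2: Kummer extensions are unramified
outside `S` (in the sense of `G.IsUnramOut`, i.e. trivial inertia at the primes not above `S`).

`fixes_root_of_inertia`: let `M / K` be number fields, `p ∈ S` a prime, `w` a prime of `M` not
above `S`, `g ∈ Aut_K(M)` in the inertia group of `w`, `a ∈ Kˣ` with `p ∣ ord_v a` for all primes
`v` of `K` not above `S`, and `β ∈ M` with `β ^ p = a`.  Then `g β = β`.

Proof: after multiplying `β` by a suitable `c ∈ Kˣ` we may assume that `β` is integral and a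
unit at `w`.  Then `g β = η β` with `η ^ p = 1`, and `(η - 1) β ∈ w` gives `η - 1 ∈ w`; if
`η ≠ 1` then `η - 1 ∣ p`, so `p ∈ w`, i.e. `w` is above `p ∈ S`.
-/
import Fermat.Agent.S55.G.Exist.Spec

set_option autoImplicit false
set_option linter.unusedSectionVars false

open scoped NumberField
open IsDedekindDomain

namespace Fermat.Agent.S55.G.Exist.H361

open Fermat.Agent.S55.G

section Normalise

variable {K : Type} [Field K] [NumberField K]

/-- If `p ∣ ord_v a`, there is `c ∈ Kˣ` such that `a c^p` is an integer of `K` prime to `v`. -/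
lemma exists_mul_pow_integral (p : ℕ) (hp : p ≠ 0) (v : HeightOneSpectrum (𝓞 K)) (a : Kˣ)
    (ha : (p : ℤ) ∣ ordAt v (Additive.ofMul a)) :
    ∃ (c : K) (a' : 𝓞 K), c ≠ 0 ∧ a' ∉ v.asIdeal ∧ (a' : K) = (a : K) * c ^ p := by
  obtain ⟨d, hd⟩ := ha
  obtain ⟨π, hπ⟩ := v.valuation_exists_uniformizer K
  have hπ0 : π ≠ 0 := by
    intro h
    rw [h, map_zero] at hπ
    exact WithZero.exp_ne_zero.symm hπ
  have hva : v.valuation K (a : K) = WithZero.exp (-((p : ℤ) * d)) := by
    have := valuation_eq_exp_neg_ordAt v (Additive.ofMul a)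
    rw [hd] at this
    exact this
  -- `x = a π^{-pd}` has valuation `1`
  have hx : v.valuation K ((a : K) * (π ^ (-d)) ^ p) = 1 := by
    rw [map_mul, map_pow, map_zpow₀, hva, hπ, ← WithZero.exp_zsmul, ← WithZero.exp_nsmul,
      ← WithZero.exp_add, ← WithZero.exp_zero]
    congr 1
    simp only [smul_eq_mul, nsmul_eq_mul]
    ring
  obtain ⟨n, s, hns⟩ := v.exists_primeCompl_mul_eq_of_integer ((a : K) * (π ^ (-d)) ^ p) hx.le
  have hs : (s : 𝓞 K) ∉ v.asIdeal := s.2
  have hsv : v.valuation K (algebraMap (𝓞 K) K s) = 1 :=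
    (HeightOneSpectrum.valuation_eq_one_iff_notMem v).2 hs
  have hn : n ∉ v.asIdeal := by
    rw [← HeightOneSpectrum.valuation_eq_one_iff_notMem v (K := K), ← hns, map_mul, hx, hsv,
      one_mul]
  have hs0 : (s : 𝓞 K) ≠ 0 := fun h => hs (h ▸ v.asIdeal.zero_mem)
  refine ⟨π ^ (-d) * algebraMap (𝓞 K) K s, n * (s : 𝓞 K) ^ (p - 1), ?_, ?_, ?_⟩
  · refine mul_ne_zero (zpow_ne_zero _ hπ0) ?_
    intro h
    exact hs0 ((FaithfulSMul.algebraMap_injective (𝓞 K) K) (h.trans (map_zero _).symm))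
  · intro h
    rcases (v.isPrime.mem_or_mem h) with h1 | h1
    · exact hn h1
    · exact hs (v.isPrime.mem_of_pow_mem _ h1)
  · have hp1 : p - 1 + 1 = p := Nat.succ_pred_eq_of_ne_zero hp
    push_cast
    change algebraMap (𝓞 K) K n * (algebraMap (𝓞 K) K s) ^ (p - 1) = _
    rw [← hns, mul_pow]
    have : (algebraMap (𝓞 K) K s) ^ p =
        algebraMap (𝓞 K) K s * (algebraMap (𝓞 K) K s) ^ (p - 1) := by
      rw [← pow_succ', hp1]
    rw [this]
    ring

end Normalise

section Inertia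

variable {K M : Type} [Field K] [NumberField K] [Field M] [NumberField M] [Algebra K M]

/-- `η - 1 ∣ p` for a `p`-th root of unity `η ≠ 1` (`p` prime) in a domain. -/
lemma sub_one_dvd_prime_of_pow_eq_one {R : Type*} [CommRing R] [IsDomain R] {p : ℕ}
    (hp : p.Prime) {η : R} (hη : η ^ p = 1) (hη1 : η ≠ 1) : η - 1 ∣ (p : R) := by
  have : Fact p.Prime := ⟨hp⟩
  have hprim : IsPrimitiveRoot η p := by
    rw [IsPrimitiveRoot.iff_orderOf]
    exact orderOf_eq_prime hη hη1
  have hroot : (Polynomial.cyclotomic p R).IsRoot η := hprim.isRoot_cyclotomic hp.pos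
  have h1 := Polynomial.sub_dvd_eval_sub η 1 (Polynomial.cyclotomic p R)
  rw [Polynomial.IsRoot.def.1 hroot, Polynomial.eval_one_cyclotomic_prime, zero_sub] at h1
  exact (dvd_neg.1 h1)

/-- **Inertia fixes Kummer roots.** -/
theorem fixes_root_of_inertia (p : ℕ) [hp : Fact p.Prime] (S : Finset Nat.Primes)
    (hpS : (⟨p, hp.out⟩ : Nat.Primes) ∈ S)
    (w : HeightOneSpectrum (𝓞 M)) (hw : ¬ IsAbove S M w) (g : M ≃ₐ[K] M)
    (hg : ∀ x y : 𝓞 M, (y : M) = g (x : M) → y - x ∈ w.asIdeal)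
    (a : Kˣ) (ha : ∀ v : PrimeOut S K, (p : ℤ) ∣ ordAt v.1 (Additive.ofMul a))
    (β : M) (hβ : β ^ p = algebraMap K M (a : K)) : g β = β := by
  by_contra hne
  -- the prime below `w`
  let v : HeightOneSpectrum (𝓞 K) := w.under (𝓞 K)
  have hv : ¬ IsAbove S K v := by
    rintro ⟨q, hq, hqv⟩
    refine hw ⟨q, hq, ?_⟩
    have : ((q : ℕ) : 𝓞 K) ∈ w.asIdeal.under (𝓞 K) := hqv
    rw [Ideal.under_def, Ideal.mem_comap, map_natCast] at this
    exact this
  obtain ⟨c, a', hc0, ha'v, ha'⟩ := exists_mul_pow_integral p hp.out.ne_zero v a (ha ⟨v, hv⟩)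
  -- the normalised root
  have hβ0 : β ≠ 0 := by
    intro h
    rw [h, zero_pow hp.out.ne_zero] at hβ
    exact a.ne_zero ((algebraMap K M).injective (hβ.symm.trans (map_zero _).symm))
  have hcM : algebraMap K M c ≠ 0 := fun h =>
    hc0 ((algebraMap K M).injective (h.trans (map_zero _).symm))
  have hpow : (β * algebraMap K M c) ^ p = algebraMap (𝓞 M) M (algebraMap (𝓞 K) (𝓞 M) a') := by
    rw [mul_pow, hβ, ← map_pow, ← map_mul, ← ha']
    rfl
  have hint : IsIntegral ℤ (β * algebraMap K M c) := by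
    refine IsIntegral.of_pow hp.out.pos ?_
    rw [hpow]
    exact NumberField.RingOfIntegers.isIntegral_coe _
  let b : 𝓞 M := ⟨β * algebraMap K M c, hint⟩
  have hb : (b : M) = β * algebraMap K M c := rfl
  have hbp : b ^ p = algebraMap (𝓞 K) (𝓞 M) a' := by
    apply NumberField.RingOfIntegers.coe_injective
    rw [map_pow]
    exact hpow
  have hbw : b ∉ w.asIdeal := by
    intro h
    have h1 : b ^ p ∈ w.asIdeal := Ideal.pow_mem_of_mem _ h p hp.out.pos
    rw [hbp] at h1
    exact ha'v h1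
  -- the root of unity
  have hη : (g β / β) ^ p = 1 := by
    rw [div_pow, ← map_pow, hβ, AlgEquiv.commutes, div_self]
    rw [← hβ]
    exact pow_ne_zero _ hβ0
  have hηint : IsIntegral ℤ (g β / β) := by
    refine IsIntegral.of_pow hp.out.pos ?_
    rw [hη]
    exact isIntegral_one
  let η : 𝓞 M := ⟨g β / β, hηint⟩
  have hηp : η ^ p = 1 := by
    apply NumberField.RingOfIntegers.coe_injective
    rw [map_pow, map_one]
    exact hη
  have hη1 : η ≠ 1 := by
    intro h
    have h1 : g β / β = 1 := by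
      have h2 : algebraMap (𝓞 M) M η = algebraMap (𝓞 M) M 1 := congrArg _ h
      rw [map_one] at h2
      exact h2
    exact hne ((div_eq_one_iff_eq hβ0).1 h1)
  -- `g b = η b`
  have hgb : ((η * b : 𝓞 M) : M) = g (b : M) := by
    rw [hb, map_mul, AlgEquiv.commutes]
    change g β / β * (β * algebraMap K M c) = _
    field_simp
  have h1 : η * b - b ∈ w.asIdeal := hg b (η * b) hgb
  have h2 : (η - 1) * b ∈ w.asIdeal := by
    have : (η - 1) * b = η * b - b := by ring
    rw [this]; exact h1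
  have h3 : η - 1 ∈ w.asIdeal := (w.isPrime.mem_or_mem h2).resolve_right hbw
  obtain ⟨r, hr⟩ := sub_one_dvd_prime_of_pow_eq_one hp.out hηp hη1
  refine hw ⟨⟨p, hp.out⟩, hpS, ?_⟩
  show ((p : ℕ) : 𝓞 M) ∈ w.asIdeal
  rw [hr]
  exact w.asIdeal.mul_mem_right _ h3

end Inertia

end Fermat.Agent.S55.G.Exist.H361
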