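/-
S55 / layer G / block EXIST, leaf EX-KUM (helper361), part 3: `kummerFieldSpec : KummerFieldSpec`.

For a number field `K ∋ μ_p`, `p ∈ S`, and `pX ≤ B ≤ Δ_S(K)` of finite index over `pX`, the field
`M = K(ᵖ√B)` (inside `AlgebraicClosure K`) with `Γ = Gal(M/K)` has all the properties required by
`KummerFieldSpec` (exact type of `G/Exist/Spec.lean`, owner helper233):

* `Γ` is commutative of exponent `p`, of order `[B : pX]`, with fixed field `K`
  (Kummer theory: `Fermat/Agent/S55/H361/Kummer.lean`);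
* `M / K` is unramified outside `S` (`Unram.lean`);
* if `B ≤ Ш_S(K)`, every `S`-idèle of `K` is a norm from `M` (`SplitNorm.lean`).
-/
import Fermat.Agent.S55.G.Exist.Spec
import Fermat.Agent.S55.G.Exist.H361.SplitNorm
import Fermat.Agent.S55.G.Exist.H361.Unram
import Fermat.Agent.S55.H361.Kummer

set_option autoImplicit false
set_option linter.unusedSectionVars false
set_option linter.style.haveILetI false

open scoped NumberField TensorProduct
open IsDedekindDomain

noncomputable section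

namespace Fermat.Agent.S55.G.Exist.H361

open Fermat.Agent.S55.G Fermat.Agent.S55.H361

section General

variable {K M : Type} [Field K] [NumberField K] [Field M] [NumberField M] [Algebra K M]
  (p : ℕ) [hp : Fact p.Prime] (S : Finset Nat.Primes)

/-- A Kummer extension generated by `p`-th roots of elements of `Δ_S(K)` is unramified outside
`S` (`p ∈ S`). -/
theorem isUnramOut_of_kummer [HasEnoughRootsOfUnity K p]
    (hpS : (⟨p, hp.out⟩ : Nat.Primes) ∈ S) {A : Subgroup Kˣ}
    (hgen : IntermediateField.adjoin K (rootSetOf M p A) = ⊤)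
    (hΔ : ∀ a ∈ A, ∀ v : PrimeOut S K, (p : ℤ) ∣ ordAt v.1 (Additive.ofMul a)) :
    IsUnramOut S (M ≃ₐ[K] M) M := by
  haveI : NeZero p := ⟨hp.out.ne_zero⟩
  intro w hw g hg x
  have h1 : g = 1 := by
    refine eq_one_of_forall_rootSetOf (n := p) hgen ?_
    rintro β ⟨a, ha, hβ⟩
    refine fixes_root_of_inertia p S hpS w hw g (fun x y hxy => ?_) a (hΔ a ha) β hβ
    have hy : y = g • x := by
      apply NumberField.RingOfIntegers.coe_injective
      exact hxy
    rw [hy]
    exact hg x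
  rw [h1]
  exact one_smul _ x

/-- `g ⊗ 1` fixes the image of `K ⊗ ℚ_S`. -/
lemma asAut_asMap (g : M ≃ₐ[K] M) (y : AS S K) :
    asAut S (M ≃ₐ[K] M) M g (asMap S K M y) = asMap S K M y := by
  induction y using TensorProduct.induction_on with
  | zero => simp
  | tmul x q =>
    have h : asMap S K M (x ⊗ₜ[ℚ] q) = (algebraMap K M x) ⊗ₜ[ℚ] q := by
      simp [asMap]
    rw [h, asAut_tmul]
    congr 1
    exact g.commutes x
  | add a b ha hb => simp only [map_add, ha, hb]

lemma asMap_asDiag (x : K) : asMap S K M (asDiag S K x) = asDiag S M (algebraMap K M x) := by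
  simp [asMap, asDiag_apply]

/-- **Split norms.**  If `M / K` is a finite abelian extension of exponent `p` (`μ_p ⊂ K`) such
that every element of its Kummer group is a `p`-th power in `K ⊗ ℚ_S`, then every `S`-idèle of `K`
is a norm from `M`. -/
theorem exists_norm_of_split {ζ : K} (hζ : IsPrimitiveRoot ζ p) [FiniteDimensional K M]
    [IsGalois K M] [HasEnoughRootsOfUnity K p]
    (hcomm : ∀ σ τ : M ≃ₐ[K] M, σ * τ = τ * σ) (hexp : ∀ σ : M ≃ₐ[K] M, σ ^ p = 1)
    (hSha : ∀ a : kummerSubgroup K M p, ∃ u : (AS S K)ˣ,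
      ((u ^ p : (AS S K)ˣ) : AS S K) = asDiag S K ((a : Kˣ) : K))
    (j : (AS S K)ˣ) :
    ∃ j' : (AS S M)ˣ,
      ∏ g : M ≃ₐ[K] M,
        Units.map (((asRingAut (M ≃ₐ[K] M) S M g : AS S M ≃+* AS S M)) : AS S M →* AS S M) j' =
      Units.map ((asMap S K M : AS S K →ₐ[ℚ] AS S M) : AS S K →* AS S M) j := by
  classical
  haveI : NeZero p := ⟨hp.out.ne_zero⟩
  -- the data
  have h1 : ∀ i : M ≃ₐ[K] M, ∃ a : kummerSubgroup K M p, i ≠ 1 → kummerRoot K M p i a ≠ 1 := by
    intro i
    by_cases h : i = 1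
    · exact ⟨1, fun h' => absurd h h'⟩
    · obtain ⟨a, ha⟩ := exists_kummerRoot_ne_one hcomm hexp h
      exact ⟨a, fun _ => ha⟩
  choose a ha using h1
  have h2 : ∀ i : M ≃ₐ[K] M, ∃ β : M, β ^ p = algebraMap K M (((a i : Kˣ)) : K) :=
    fun i => exists_root_of_mem (a i)
  choose β hβ using h2
  choose u hu using fun i : M ≃ₐ[K] M => hSha (a i)
  let ι : K →+* AS S M := ((asDiag S M : M →ₐ[ℚ] AS S M) : M →+* AS S M).comp (algebraMap K M)
  let t : (M ≃ₐ[K] M) → AS S M := fun i =>
    asDiag S M (β i) * asMap S K M (((u i)⁻¹ : (AS S K)ˣ) : AS S K)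
  have hpK : (p : K) ≠ 0 := by
    have : (p : K) = ((p : ℕ) : K) := rfl
    exact_mod_cast hp.out.ne_zero
  have hfix : ∀ (g : M ≃ₐ[K] M) (x : K), asRingAut (M ≃ₐ[K] M) S M g (ι x) = ι x := by
    intro g x
    change asAut S (M ≃ₐ[K] M) M g (asDiag S M (algebraMap K M x)) = asDiag S M (algebraMap K M x)
    rw [asAut_asDiag]
    congr 1
    exact g.commutes x
  have ht : ∀ i, t i ^ p = 1 := by
    intro i
    change (asDiag S M (β i) * asMap S K M (((u i)⁻¹ : (AS S K)ˣ) : AS S K)) ^ p = 1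
    rw [mul_pow, ← map_pow, hβ, ← asMap_asDiag, ← map_pow, ← map_mul, ← hu i, ← Units.val_pow_eq_pow_val,
      ← Units.val_mul, inv_pow, mul_inv_cancel, Units.val_one, map_one]
  have hact : ∀ i g, asRingAut (M ≃ₐ[K] M) S M g (t i) =
      ι (((kummerDual K M p (a i) g : rootsOfUnity p K) : Kˣ) : K) * t i := by
    intro i g
    change asAut S (M ≃ₐ[K] M) M g
        (asDiag S M (β i) * asMap S K M (((u i)⁻¹ : (AS S K)ˣ) : AS S K)) =
      asDiag S M (algebraMap K M _) *
        (asDiag S M (β i) * asMap S K M (((u i)⁻¹ : (AS S K)ˣ) : AS S K))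
    rw [map_mul, asAut_asMap, asAut_asDiag, ← mul_assoc, ← map_mul]
    congr 2
    rw [kummerDual_apply]
    exact kummerRoot_spec g (a i) (hβ i)
  have hsep : ∀ g : M ≃ₐ[K] M, g ≠ 1 → ∃ i, kummerDual K M p (a i) g ≠ 1 := by
    intro g hg
    exact ⟨g, by rw [kummerDual_apply]; exact ha g hg⟩
  have hj : ∀ g : M ≃ₐ[K] M, asRingAut (M ≃ₐ[K] M) S M g
      ((Units.map ((asMap S K M : AS S K →ₐ[ℚ] AS S M) : AS S K →* AS S M) j : (AS S M)ˣ) :
        AS S M) =
      ((Units.map ((asMap S K M : AS S K →ₐ[ℚ] AS S M) : AS S K →* AS S M) j : (AS S M)ˣ) :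
        AS S M) := by
    intro g
    exact asAut_asMap S g _
  exact exists_units_prod_eq hp.out ι hpK hζ (asRingAut (M ≃ₐ[K] M) S M) hfix t ht
    (fun i => kummerDual K M p (a i)) hact hsep _ hj

end General

section Translate

variable (p : ℕ) (K : Type) [Field K]

lemma toAddSubgroup_powSubgroup :
    Subgroup.toAddSubgroup (powSubgroup K p) = pMul p (Additive Kˣ) := by
  ext x
  constructor
  · rintro ⟨b, hb⟩
    refine ⟨Additive.ofMul b, ?_⟩
    exact congrArg Additive.ofMul hb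
  · rintro ⟨y, hy⟩
    refine ⟨y.toMul, ?_⟩
    exact congrArg Additive.toMul hy

end Translate

/-- **EX-KUM.** -/
theorem kummerFieldSpec : KummerFieldSpec := by
  intro p hp hp2 S K _ _ hpS hζ B hpB hBΔ hfin
  classical
  obtain ⟨ζ, hζ'⟩ := hζ
  haveI : NeZero p := ⟨hp.out.ne_zero⟩
  haveI : HasEnoughRootsOfUnity K p := ⟨⟨ζ, hζ'⟩, inferInstance⟩
  -- the multiplicative subgroup
  let A : Subgroup Kˣ := Subgroup.toAddSubgroup.symm B
  have hAB : Subgroup.toAddSubgroup A = B := OrderIso.apply_symm_apply _ B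
  have hmemA : ∀ a : Kˣ, a ∈ A ↔ Additive.ofMul a ∈ B := fun a => Iff.rfl
  have hPA : powSubgroup K p ≤ A := by
    rw [← Subgroup.toAddSubgroup.le_iff_le, hAB, toAddSubgroup_powSubgroup]
    exact hpB
  have hfinA : (powSubgroup K p).relIndex A ≠ 0 := by
    rw [← Subgroup.relIndex_toAddSubgroup, hAB, toAddSubgroup_powSubgroup]
    exact hfin
  have hrel : (powSubgroup K p).relIndex A = (pMul p (Additive Kˣ)).relIndex B := by
    rw [← Subgroup.relIndex_toAddSubgroup, hAB, toAddSubgroup_powSubgroup]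
  have hA : A ≤ kummerSubgroup K (AlgebraicClosure K) p := by
    intro a _
    obtain ⟨z, hz⟩ := IsAlgClosed.exists_pow_nat_eq
      (algebraMap K (AlgebraicClosure K) (a : K)) hp.out.pos
    exact mem_kummerSubgroup_iff'.2 ⟨z, hz⟩
  have hΔ : ∀ a ∈ A, ∀ v : PrimeOut S K, (p : ℤ) ∣ ordAt v.1 (Additive.ofMul a) := by
    intro a ha v
    obtain ⟨d, hd⟩ := (mem_kDelta_iff p (Additive.ofMul a)).1 (hBΔ ((hmemA a).1 ha))
    refine ⟨d v, ?_⟩
    have := congrArg (fun f : PrimeOut S K →₀ ℤ => f v) hd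
    simp only [Finsupp.smul_apply, nsmul_eq_mul] at this
    rw [this]
    rfl
  -- the field
  let M : IntermediateField K (AlgebraicClosure K) := kummerField (AlgebraicClosure K) p A
  haveI hfd : FiniteDimensional K M := finiteDimensional_kummerField hA hfinA
  haveI hnf : NumberField M := NumberField.of_module_finite K M
  have hgen : IntermediateField.adjoin K (rootSetOf M p A) = ⊤ :=
    adjoin_rootSetOf_kummerField_eq_top
  have hcomm : ∀ σ τ : M ≃ₐ[K] M, σ * τ = τ * σ := mul_comm_aut_kummerField hA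
  have hexp : ∀ σ : M ≃ₐ[K] M, σ ^ p = 1 := pow_eq_one_aut_kummerField hA
  have hKA : kummerSubgroup K M p = A := kummerSubgroup_kummerField hPA hA hfinA
  refine ⟨M, inferInstance, hnf, inferInstance, M ≃ₐ[K] M, inferInstance, inferInstance,
    inferInstance, inferInstance, ?_, hcomm, hexp, ?_, ?_, ?_, ?_⟩
  · -- fixed field
    intro x
    rw [RingHom.mem_range]
    constructor
    · intro h
      exact (IsGalois.mem_range_algebraMap_iff_fixed x).2 h
    · intro h g
      exact (IsGalois.mem_range_algebraMap_iff_fixed x).1 h g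
  · -- cardinality
    rw [← Nat.card_eq_fintype_card, IsGalois.card_aut_eq_finrank K M,
      finrank_kummerField hPA hA hfinA, hrel]
  · -- unramified
    exact isUnramOut_of_kummer p S hpS hgen hΔ
  · -- roots
    intro x hx
    have hxA : x.toMul ∈ A := hx
    obtain ⟨β, hβ⟩ := mem_kummerSubgroup_iff'.1 (hKA ▸ hxA : x.toMul ∈ kummerSubgroup K M p)
    exact ⟨β, hβ⟩
  · -- split norms
    intro hSha j
    have hS : ∀ a : kummerSubgroup K M p, ∃ u : (AS S K)ˣ,
        ((u ^ p : (AS S K)ˣ) : AS S K) = asDiag S K ((a : Kˣ) : K) := by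
      intro a
      have haA : (a : Kˣ) ∈ A := hKA ▸ a.2
      obtain ⟨-, u, hu⟩ := (mem_kSha_iff p (Additive.ofMul (a : Kˣ))).1
        (hSha ((hmemA _).1 haA))
      refine ⟨u.toMul, ?_⟩
      have h1 : (u.toMul ^ p : (AS S K)ˣ) = (unitsDiag S K (Additive.ofMul (a : Kˣ))).toMul :=
        congrArg Additive.toMul hu
      rw [h1]
      rfl
    obtain ⟨j', hj'⟩ := exists_norm_of_split p S hζ' hcomm hexp hS j.toMul
    refine ⟨Additive.ofMul j', ?_⟩
    have h2 : ∀ g : M ≃ₐ[K] M, jRepr (M ≃ₐ[K] M) S M g (Additive.ofMul j') =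
        Additive.ofMul (Units.map
          (((asRingAut (M ≃ₐ[K] M) S M g : AS S M ≃+* AS S M)) : AS S M →* AS S M) j') :=
      fun g => rfl
    simp_rw [h2]
    rw [← ofMul_prod, hj']
    rfl

end Fermat.Agent.S55.G.Exist.H361

end
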